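/-
GATE-F (S40), node GF-ORD part 2 (helper57): **(ORD2)** — the local `Δ`-stable algebra `B` of
`GF/Ord/Fourier.lean` CONTAINS the character `χ = ψ` as soon as the base is local with maximal ideal
`(1 − ζ)` and ONE function of `B` has `f 1 − f 0` not divisible by `(1 − ζ)²` (a coordinate of `w0` of
exact valuation `1/(p−1)`); hence `B = O[χ]` exactly (`mem_iff`): the order cut out on `⟨w0⟩` is the
`μ_p`-order.  Mathlib only.
-/
import Mathlib
import Fermat.Agent.GF.Ord.Fourier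

set_option autoImplicit false
set_option linter.unusedSectionVars false

namespace Fermat.Agent.GF.Ord

open Finset

variable {O : Type*} [CommRing O] [IsDomain O]
variable {p : ℕ} [hp : Fact p.Prime]
variable {ψ : AddChar (ZMod p) O} {B : Subalgebra O (ZMod p → O)}
variable (hψ : ψ.IsPrimitive)
include hψ

/-- linear independence of the characters `y ↦ ψ (j y)`. -/
theorem coeff_eq_zero (hp0 : (p : O) ≠ 0) (d : ZMod p → O)
    (h : ∀ y, ∑ j, d j * ψ (j * y) = 0) : ∀ j, d j = 0 := by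
  classical
  intro j0
  apply mul_left_cancel₀ hp0
  rw [mul_zero]
  have h1 : ∑ y : ZMod p, ψ (-(j0 * y)) * ∑ j, d j * ψ (j * y) = 0 := by
    simp only [h, mul_zero, Finset.sum_const_zero]
  rw [← h1]
  simp_rw [Finset.mul_sum]
  rw [Finset.sum_comm]
  have h2 : ∀ j : ZMod p, ∑ y : ZMod p, ψ (-(j0 * y)) * (d j * ψ (j * y))
      = (if j = j0 then (p : O) else 0) * d j := by
    intro j
    have h3 : ∀ y : ZMod p, ψ (-(j0 * y)) * (d j * ψ (j * y)) = ψ (y * (j - j0)) * d j := by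
      intro y
      rw [mul_comm (d j), ← mul_assoc, ← AddChar.map_add_eq_mul]
      congr 2
      ring
    rw [Finset.sum_congr rfl (fun y _ => h3 y), ← Finset.sum_mul, sum_char_mul ψ hψ]
    congr 1
    by_cases hj : j = j0
    · rw [if_pos hj, if_pos (by rw [hj, sub_self])]
    · rw [if_neg hj, if_neg (fun h0 => hj (sub_eq_zero.mp h0))]
  rw [Finset.sum_congr rfl (fun j _ => h2 j), Finset.sum_eq_single j0]
  · rw [if_pos rfl]
  · intro b _ hb
    rw [if_neg hb, zero_mul]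
  · intro h
    exact absurd (Finset.mem_univ _) h

/-- **(ORD2)**: `χ ∈ B`. -/
theorem chi_mem (hΔ : DeltaStable B) (hp0 : (p : O) ≠ 0)
    (hloc : ∀ f ∈ B, (1 - ψ 1) ∣ f 1 - f 0)
    (hmax : ∀ c : O, (1 - ψ 1) ∣ c ∨ IsUnit c)
    {f0 : ZMod p → O} (hf0 : f0 ∈ B) (hw : ¬ (1 - ψ 1) ^ 2 ∣ f0 1 - f0 0) :
    (fun k : ZMod p => ψ k) ∈ B := by
  classical
  obtain ⟨c, hc⟩ := exists_coeff hψ hΔ hp0 hloc f0 hf0
  -- a unit coefficient at some `j ≠ 0`
  have hex : ∃ j : ZMod p, j ≠ 0 ∧ IsUnit (c j) := by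
    by_contra hcon
    push Not at hcon
    apply hw
    have h1 : f0 1 - f0 0 = ∑ j, c j * ((1 - ψ 1) * ell ψ j) := by
      rw [hc 1, hc 0, ← Finset.sum_sub_distrib]
      refine Finset.sum_congr rfl (fun j _ => ?_)
      rw [one_sub_mul_ell, mul_one, mul_zero, AddChar.map_zero_eq_one]
      ring
    rw [h1]
    refine Finset.dvd_sum (fun j _ => ?_)
    by_cases hj : j = 0
    · subst hj
      have : ell ψ (0 : ZMod p) = 0 := by
        rw [ell, ZMod.val_zero, Finset.range_zero, Finset.sum_empty, neg_zero]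
      rw [this, mul_zero, mul_zero]
      exact dvd_zero _
    · have hnu : ¬ IsUnit (c j) := hcon j hj
      obtain ⟨e, he⟩ := (hmax (c j)).resolve_right hnu
      rw [he]
      exact ⟨e * ell ψ j, by ring⟩
  obtain ⟨j, hj0, hu⟩ := hex
  -- `χ_j ∈ B` from the `Δ`-decomposition of `f0`
  obtain ⟨n, a, b, ha, hb, hab⟩ := hΔ f0 hf0
  have hβ : ∀ i, ∃ β : ZMod p → O, ∀ k, b i k = ∑ j, β j * ψ (j * k) :=
    fun i => exists_coeff hψ hΔ hp0 hloc (b i) (hb i)
  choose β hβ' using hβ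
  have hkey : ∀ x : ZMod p, ∀ j', c j' * ψ (j' * x) - ∑ i, a i x * β i j' = 0 := by
    intro x
    apply coeff_eq_zero hψ hp0
    intro y
    have e1 : ∑ j', (c j' * ψ (j' * x) - ∑ i, a i x * β i j') * ψ (j' * y)
        = f0 (x + y) - ∑ i, a i x * b i y := by
      rw [hc (x + y)]
      simp_rw [sub_mul, Finset.sum_sub_distrib]
      congr 1
      · refine Finset.sum_congr rfl (fun j' _ => ?_)
        rw [mul_add, AddChar.map_add_eq_mul]
        ring
      · simp_rw [Finset.sum_mul]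
        rw [Finset.sum_comm]
        refine Finset.sum_congr rfl (fun i _ => ?_)
        rw [hβ' i y, Finset.mul_sum]
        refine Finset.sum_congr rfl (fun j' _ => ?_)
        ring
    rw [e1, hab x y, sub_self]
  obtain ⟨u, hu'⟩ := hu.exists_left_inv
  have hχj : (fun x : ZMod p => ψ (j * x)) ∈ B := by
    have : (fun x : ZMod p => ψ (j * x)) = u • ∑ i, β i j • a i := by
      funext x
      rw [Pi.smul_apply, smul_eq_mul, Finset.sum_apply]
      simp only [Pi.smul_apply, smul_eq_mul]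
      have h1 := sub_eq_zero.mp (hkey x j)
      have h2 : ∑ i, β i j * a i x = c j * ψ (j * x) := by
        rw [h1]
        exact Finset.sum_congr rfl (fun i _ => mul_comm _ _)
      rw [h2, ← mul_assoc, hu', one_mul]
    rw [this]
    exact B.smul_mem (B.sum_mem (fun i _ => B.smul_mem (ha i) _)) _
  -- `χ = χ_j ^ n`
  have hpw : (fun k : ZMod p => ψ k) = (fun x : ZMod p => ψ (j * x)) ^ (j⁻¹).val := by
    funext k
    rw [Pi.pow_apply, ← AddChar.map_nsmul_eq_pow]
    congr 1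
    rw [nsmul_eq_mul, ZMod.natCast_zmod_val, ← mul_assoc, inv_mul_cancel₀ hj0, one_mul]
  rw [hpw]
  exact B.pow_mem hχj _

/-- **(ORD)**: `B = O[χ]`. -/
theorem mem_iff (hΔ : DeltaStable B) (hp0 : (p : O) ≠ 0)
    (hloc : ∀ f ∈ B, (1 - ψ 1) ∣ f 1 - f 0)
    (hmax : ∀ c : O, (1 - ψ 1) ∣ c ∨ IsUnit c)
    {f0 : ZMod p → O} (hf0 : f0 ∈ B) (hw : ¬ (1 - ψ 1) ^ 2 ∣ f0 1 - f0 0) (f : ZMod p → O) :
    f ∈ B ↔ ∃ c : ZMod p → O, ∀ k, f k = ∑ j, c j * ψ (j * k) := by
  constructor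
  · exact exists_coeff hψ hΔ hp0 hloc f
  · rintro ⟨c, hc⟩
    have hχ := chi_mem hψ hΔ hp0 hloc hmax hf0 hw
    have : f = ∑ j : ZMod p, c j • (fun k : ZMod p => ψ k) ^ j.val := by
      funext k
      rw [hc k, Finset.sum_apply]
      refine Finset.sum_congr rfl (fun j _ => ?_)
      rw [Pi.smul_apply, smul_eq_mul, Pi.pow_apply, ← AddChar.map_nsmul_eq_pow]
      congr 2
      rw [nsmul_eq_mul, ZMod.natCast_zmod_val]
    rw [this]
    exact B.sum_mem (fun j _ => B.smul_mem (B.pow_mem hχ _) _)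

end Fermat.Agent.GF.Ord
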