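/-
GATE-F (S40), node GF-ORD part 3 (helper57): **(ORD2) without any valuation witness.**

For the local `Δ`-stable algebra `B ⊆ Map(ℤ/p, O)` of `GF/Ord/Fourier.lean` let `J_j ⊆ O` be the ideal
of `χ_j`-coefficients of the functions of `B` (`B ⊆ O[χ]` by (ORD1)).  `Δ`-stability gives
`c ∈ J_j ⟹ c • χ_j ∈ B` and then `c ∈ J_j * J_j`: the ideal `J_j` is IDEMPOTENT.  If it is finitely
generated (e.g. `O` noetherian, or `B` a finite `O`-module) then `J_j = ⊥` or `J_j = ⊤`; a
non-constant function in `B` has a non-zero coefficient at some `j ≠ 0`, so `χ_j ∈ B`, hence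
`χ ∈ B` and `B = O[χ]` (`mem_iff_of_noetherian`).  Mathlib only.
-/
import Mathlib
import Fermat.Agent.GF.Ord.Chi

set_option autoImplicit false
set_option linter.unusedSectionVars false

namespace Fermat.Agent.GF.Ord

open Finset

variable {O : Type*} [CommRing O] [IsDomain O]
variable {p : ℕ} [hp : Fact p.Prime]
variable {ψ : AddChar (ZMod p) O} {B : Subalgebra O (ZMod p → O)}

/-- `c` is a `χ_j`-coefficient of a function of `B`. -/
def IsCoef (ψ : AddChar (ZMod p) O) (B : Subalgebra O (ZMod p → O)) (j : ZMod p) (c : O) : Prop :=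
  ∃ f ∈ B, four ψ f j = (p : O) * c

theorem four_add (ψ : AddChar (ZMod p) O) (f g : ZMod p → O) (j : ZMod p) :
    four ψ (f + g) j = four ψ f j + four ψ g j := by
  simp only [four, Pi.add_apply, mul_add, Finset.sum_add_distrib]

theorem four_smul (ψ : AddChar (ZMod p) O) (c : O) (f : ZMod p → O) (j : ZMod p) :
    four ψ (c • f) j = c * four ψ f j := by
  simp only [four, Pi.smul_apply, smul_eq_mul, Finset.mul_sum]
  refine Finset.sum_congr rfl (fun k _ => ?_)
  ring

/-- the ideal of `χ_j`-coefficients. -/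
def coefIdeal (ψ : AddChar (ZMod p) O) (B : Subalgebra O (ZMod p → O)) (j : ZMod p) : Ideal O where
  carrier := {c | IsCoef ψ B j c}
  zero_mem' := ⟨0, B.zero_mem, by simp [four]⟩
  add_mem' := by
    rintro c c' ⟨f, hf, h⟩ ⟨f', hf', h'⟩
    exact ⟨f + f', B.add_mem hf hf', by rw [four_add, h, h', mul_add]⟩
  smul_mem' := by
    rintro r c ⟨f, hf, h⟩
    exact ⟨r • f, B.smul_mem hf r, by rw [four_smul, h, smul_eq_mul]; ring⟩

theorem mem_coefIdeal {j : ZMod p} {c : O} : c ∈ coefIdeal ψ B j ↔ IsCoef ψ B j c := Iff.rfl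

variable (hψ : ψ.IsPrimitive)
include hψ

/-- the Fourier transform of `∑ j, c j • χ_j`. -/
theorem four_of_coeff {f : ZMod p → O} {c : ZMod p → O}
    (hc : ∀ k, f k = ∑ j, c j * ψ (j * k)) (j0 : ZMod p) : four ψ f j0 = (p : O) * c j0 := by
  classical
  simp only [four]
  simp_rw [hc, Finset.mul_sum]
  rw [Finset.sum_comm]
  have h2 : ∀ j : ZMod p, ∑ k : ZMod p, ψ (-(j0 * k)) * (c j * ψ (j * k))
      = (if j = j0 then (p : O) else 0) * c j := by
    intro j
    have h3 : ∀ k : ZMod p, ψ (-(j0 * k)) * (c j * ψ (j * k)) = ψ (k * (j - j0)) * c j := by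
      intro k
      rw [mul_comm (c j), ← mul_assoc, ← AddChar.map_add_eq_mul]
      congr 2
      ring
    rw [Finset.sum_congr rfl (fun k _ => h3 k), ← Finset.sum_mul, sum_char_mul ψ hψ]
    congr 1
    by_cases hj : j = j0
    · rw [if_pos hj, if_pos (by rw [hj, sub_self])]
    · rw [if_neg hj, if_neg (fun h0 => hj (sub_eq_zero.mp h0))]
  rw [Finset.sum_congr rfl (fun j _ => h2 j), Finset.sum_eq_single j0]
  · rw [if_pos rfl]
  · intro b _ hb
    rw [if_neg hb, zero_mul]
  · intro h
    exact absurd (Finset.mem_univ _) h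

section local_

variable (hΔ : DeltaStable B) (hp0 : (p : O) ≠ 0) (hloc : ∀ f ∈ B, (1 - ψ 1) ∣ f 1 - f 0)
include hΔ hp0 hloc

/-- coefficients of a function of `B` (any representation) lie in the coefficient ideals. -/
theorem coeff_mem_coefIdeal {f : ZMod p → O} (hf : f ∈ B) {c : ZMod p → O}
    (hc : ∀ k, f k = ∑ j, c j * ψ (j * k)) (j : ZMod p) : c j ∈ coefIdeal ψ B j :=
  ⟨f, hf, four_of_coeff hψ hc j⟩

/-- **(K1)** `c ∈ J_j ⟹ c • χ_j ∈ B`. -/
theorem smul_char_mem {j : ZMod p} {c : O} (hc : c ∈ coefIdeal ψ B j) :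
    (fun x : ZMod p => c * ψ (j * x)) ∈ B := by
  classical
  obtain ⟨f, hf, hfc⟩ := hc
  obtain ⟨cf, hcf⟩ := exists_coeff hψ hΔ hp0 hloc f hf
  have hcj : cf j = c := by
    apply mul_left_cancel₀ hp0
    rw [← hfc, four_of_coeff hψ hcf j]
  obtain ⟨n, a, b, ha, hb, hab⟩ := hΔ f hf
  have hβ : ∀ i, ∃ β : ZMod p → O, ∀ k, b i k = ∑ j, β j * ψ (j * k) :=
    fun i => exists_coeff hψ hΔ hp0 hloc (b i) (hb i)
  choose β hβ' using hβ
  have hkey : ∀ x : ZMod p, ∀ j', cf j' * ψ (j' * x) - ∑ i, a i x * β i j' = 0 := by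
    intro x
    apply coeff_eq_zero hψ hp0
    intro y
    have e1 : ∑ j', (cf j' * ψ (j' * x) - ∑ i, a i x * β i j') * ψ (j' * y)
        = f (x + y) - ∑ i, a i x * b i y := by
      rw [hcf (x + y)]
      simp_rw [sub_mul, Finset.sum_sub_distrib]
      congr 1
      · refine Finset.sum_congr rfl (fun j' _ => ?_)
        rw [mul_add, AddChar.map_add_eq_mul]
        ring
      · simp_rw [Finset.sum_mul]
        rw [Finset.sum_comm]
        refine Finset.sum_congr rfl (fun i _ => ?_)
        rw [hβ' i y, Finset.mul_sum]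
        refine Finset.sum_congr rfl (fun j' _ => ?_)
        ring
    rw [e1, hab x y, sub_self]
  have : (fun x : ZMod p => c * ψ (j * x)) = ∑ i, β i j • a i := by
    funext x
    rw [Finset.sum_apply]
    simp only [Pi.smul_apply, smul_eq_mul]
    have h1 := sub_eq_zero.mp (hkey x j)
    rw [← hcj, h1]
    exact Finset.sum_congr rfl (fun i _ => mul_comm _ _)
  rw [this]
  exact B.sum_mem (fun i _ => B.smul_mem (ha i) _)

/-- **(K2)** the coefficient ideals are idempotent. -/
theorem coefIdeal_le_mul (j : ZMod p) : coefIdeal ψ B j ≤ coefIdeal ψ B j * coefIdeal ψ B j := by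
  classical
  intro c hc
  have hg := smul_char_mem hψ hΔ hp0 hloc hc
  obtain ⟨n, a, b, ha, hb, hab⟩ := hΔ _ hg
  have hα : ∀ i, ∃ α : ZMod p → O, ∀ k, a i k = ∑ j, α j * ψ (j * k) :=
    fun i => exists_coeff hψ hΔ hp0 hloc (a i) (ha i)
  choose α hα' using hα
  have hβ : ∀ i, ∃ β : ZMod p → O, ∀ k, b i k = ∑ j, β j * ψ (j * k) :=
    fun i => exists_coeff hψ hΔ hp0 hloc (b i) (hb i)
  choose β hβ' using hβ
  -- first variable
  have h1 : ∀ y : ZMod p, c * ψ (j * y) = ∑ i, α i j * b i y := by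
    intro y
    have hz : ∀ j1, (if j1 = j then c * ψ (j * y) else 0) - ∑ i, α i j1 * b i y = 0 := by
      apply coeff_eq_zero hψ hp0
      intro x
      have e1 : ∑ j1, ((if j1 = j then c * ψ (j * y) else 0) - ∑ i, α i j1 * b i y) * ψ (j1 * x)
          = c * ψ (j * (x + y)) - ∑ i, a i x * b i y := by
        simp_rw [sub_mul, Finset.sum_sub_distrib]
        congr 1
        · rw [Finset.sum_eq_single j]
          · rw [if_pos rfl, mul_add, AddChar.map_add_eq_mul]
            ring
          · intro b' _ hb'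
            rw [if_neg hb', zero_mul]
          · intro h
            exact absurd (Finset.mem_univ _) h
        · simp_rw [Finset.sum_mul]
          rw [Finset.sum_comm]
          refine Finset.sum_congr rfl (fun i _ => ?_)
          rw [hα' i x, Finset.sum_mul]
          refine Finset.sum_congr rfl (fun j1 _ => ?_)
          ring
      rw [e1, ← hab x y, sub_self]
    have := hz j
    rw [if_pos rfl] at this
    exact sub_eq_zero.mp this
  -- second variable
  have h2 : c = ∑ i, α i j * β i j := by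
    have hz : ∀ j2, (if j2 = j then c else 0) - ∑ i, α i j * β i j2 = 0 := by
      apply coeff_eq_zero hψ hp0
      intro y
      have e1 : ∑ j2, ((if j2 = j then c else 0) - ∑ i, α i j * β i j2) * ψ (j2 * y)
          = c * ψ (j * y) - ∑ i, α i j * b i y := by
        simp_rw [sub_mul, Finset.sum_sub_distrib]
        congr 1
        · rw [Finset.sum_eq_single j]
          · rw [if_pos rfl]
          · intro b' _ hb'
            rw [if_neg hb', zero_mul]
          · intro h
            exact absurd (Finset.mem_univ _) h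
        · simp_rw [Finset.sum_mul]
          rw [Finset.sum_comm]
          refine Finset.sum_congr rfl (fun i _ => ?_)
          rw [hβ' i y, Finset.mul_sum]
          refine Finset.sum_congr rfl (fun j2 _ => ?_)
          ring
      rw [e1, h1 y, sub_self]
    have := hz j
    rw [if_pos rfl] at this
    exact sub_eq_zero.mp this
  rw [h2]
  refine Ideal.sum_mem _ (fun i _ => Ideal.mul_mem_mul ?_ ?_)
  · exact coeff_mem_coefIdeal hψ hΔ hp0 hloc (ha i) (hα' i) j
  · exact coeff_mem_coefIdeal hψ hΔ hp0 hloc (hb i) (hβ' i) j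

theorem coefIdeal_idem (j : ZMod p) : IsIdempotentElem (coefIdeal ψ B j) :=
  le_antisymm Ideal.mul_le_right (coefIdeal_le_mul hψ hΔ hp0 hloc j)

/-- **(ORD2)**, witness-free: a non-constant function in `B` and finitely generated coefficient
ideals put `χ` in `B`. -/
theorem chi_mem_of_fg (hfg : ∀ j, (coefIdeal ψ B j).FG)
    {f0 : ZMod p → O} (hf0 : f0 ∈ B) (hne : f0 1 ≠ f0 0) :
    (fun k : ZMod p => ψ k) ∈ B := by
  classical
  obtain ⟨c, hc⟩ := exists_coeff hψ hΔ hp0 hloc f0 hf0
  -- a nonzero coefficient at some `j ≠ 0`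
  have hex : ∃ j : ZMod p, j ≠ 0 ∧ c j ≠ 0 := by
    by_contra hcon
    push Not at hcon
    apply hne
    rw [hc 1, hc 0]
    refine Finset.sum_congr rfl (fun j _ => ?_)
    by_cases hj : j = 0
    · rw [hj, zero_mul, zero_mul]
    · rw [hcon j hj, zero_mul, zero_mul]
  obtain ⟨j, hj0, hcj⟩ := hex
  have hJ := (Ideal.isIdempotentElem_iff_eq_bot_or_top _ (hfg j)).mp
    (coefIdeal_idem hψ hΔ hp0 hloc j)
  have hmem := coeff_mem_coefIdeal hψ hΔ hp0 hloc hf0 hc j
  have htop : coefIdeal ψ B j = ⊤ := by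
    rcases hJ with h | h
    · rw [h, Ideal.mem_bot] at hmem
      exact absurd hmem hcj
    · exact h
  have h1 : (1 : O) ∈ coefIdeal ψ B j := by rw [htop]; exact Submodule.mem_top
  have hχj : (fun x : ZMod p => ψ (j * x)) ∈ B := by
    have := smul_char_mem hψ hΔ hp0 hloc h1
    simpa only [one_mul] using this
  have hpw : (fun k : ZMod p => ψ k) = (fun x : ZMod p => ψ (j * x)) ^ (j⁻¹).val := by
    funext k
    rw [Pi.pow_apply, ← AddChar.map_nsmul_eq_pow]
    congr 1
    rw [nsmul_eq_mul, ZMod.natCast_zmod_val, ← mul_assoc, inv_mul_cancel₀ hj0, one_mul]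
  rw [hpw]
  exact B.pow_mem hχj _

/-- **(ORD)** over a noetherian base: `B = O[χ]`. -/
theorem mem_iff_of_noetherian [IsNoetherianRing O]
    {f0 : ZMod p → O} (hf0 : f0 ∈ B) (hne : f0 1 ≠ f0 0) (f : ZMod p → O) :
    f ∈ B ↔ ∃ c : ZMod p → O, ∀ k, f k = ∑ j, c j * ψ (j * k) := by
  constructor
  · exact exists_coeff hψ hΔ hp0 hloc f
  · rintro ⟨c, hc⟩
    have hχ := chi_mem_of_fg hψ hΔ hp0 hloc (fun j => IsNoetherian.noetherian _) hf0 hne
    have : f = ∑ j : ZMod p, c j • (fun k : ZMod p => ψ k) ^ j.val := by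
      funext k
      rw [hc k, Finset.sum_apply]
      refine Finset.sum_congr rfl (fun j _ => ?_)
      rw [Pi.smul_apply, smul_eq_mul, Pi.pow_apply, ← AddChar.map_nsmul_eq_pow]
      congr 2
      rw [nsmul_eq_mul, ZMod.natCast_zmod_val]
    rw [this]
    exact B.sum_mem (fun j _ => B.smul_mem (B.pow_mem hχ _) _)

/-- the Fourier coefficient as a linear functional. -/
def fourLin (ψ : AddChar (ZMod p) O) (j : ZMod p) : (ZMod p → O) →ₗ[O] O where
  toFun f := four ψ f j
  map_add' f g := four_add ψ f g j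
  map_smul' c f := by rw [four_smul, RingHom.id_apply, smul_eq_mul]

/-- if `B` is a finite `O`-module, the coefficient ideals are finitely generated. -/
theorem coefIdeal_fg_of_fg (hfgB : (Subalgebra.toSubmodule B).FG) (j : ZMod p) :
    (coefIdeal ψ B j).FG := by
  have hinj : Function.Injective (LinearMap.mulLeft O (p : O)) := by
    intro a b hab
    exact mul_left_cancel₀ hp0 hab
  apply Submodule.fg_of_fg_map_injective (LinearMap.mulLeft O (p : O)) hinj
  have hmap : Submodule.map (LinearMap.mulLeft O (p : O)) (coefIdeal ψ B j)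
      = Submodule.map (fourLin ψ j) (Subalgebra.toSubmodule B) := by
    ext z
    constructor
    · rintro ⟨c, ⟨f, hf, hfc⟩, rfl⟩
      exact ⟨f, hf, hfc⟩
    · rintro ⟨f, hf, rfl⟩
      obtain ⟨c, hc⟩ := dvd_fourier hψ hΔ hp0 hloc f hf j
      exact ⟨c, ⟨f, hf, hc⟩, hc.symm⟩
  rw [hmap]
  exact hfgB.map _

/-- **(ORD)** for a finite `B`: `B = O[χ]`. -/
theorem mem_iff_of_fg (hfgB : (Subalgebra.toSubmodule B).FG)
    {f0 : ZMod p → O} (hf0 : f0 ∈ B) (hne : f0 1 ≠ f0 0) (f : ZMod p → O) :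
    f ∈ B ↔ ∃ c : ZMod p → O, ∀ k, f k = ∑ j, c j * ψ (j * k) := by
  constructor
  · exact exists_coeff hψ hΔ hp0 hloc f
  · rintro ⟨c, hc⟩
    have hχ := chi_mem_of_fg hψ hΔ hp0 hloc
      (fun j => coefIdeal_fg_of_fg hψ hΔ hp0 hloc hfgB j) hf0 hne
    have : f = ∑ j : ZMod p, c j • (fun k : ZMod p => ψ k) ^ j.val := by
      funext k
      rw [hc k, Finset.sum_apply]
      refine Finset.sum_congr rfl (fun j _ => ?_)
      rw [Pi.smul_apply, smul_eq_mul, Pi.pow_apply, ← AddChar.map_nsmul_eq_pow]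
      congr 2
      rw [nsmul_eq_mul, ZMod.natCast_zmod_val]
    rw [this]
    exact B.sum_mem (fun j _ => B.smul_mem (B.pow_mem hχ _) _)

end local_

end Fermat.Agent.GF.Ord
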