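/-
GATE-F (S40), node GF-ORD (helper57): **(ORD) as a theorem** — Oort–Tate at `e = p − 1` without
classifying anything.

`O` a commutative domain, `ψ : AddChar (ZMod p) O` a primitive additive character (`ζ = ψ 1` a
primitive `p`-th root of unity), `B ⊆ Map(ℤ/p, O)` an `O`-subalgebra which is `Δ`-stable
(`f (x + y) = ∑ i, a i x * b i y` with `a i, b i ∈ B`) and **local at level `1 − ζ`**:
`(1 − ζ) ∣ f 1 − f 0` for all `f ∈ B`.  Then every `f ∈ B` has *integral Fourier coefficients*: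

  `(p : O) ∣ ∑ k, ψ (-(j * k)) * f k`   for all `j`        (`dvd_fourier`)

equivalently `f = ∑ j, c j • χ_j` with `c j ∈ O` (`exists_coeff`): `B ⊆ O[χ]`, the `μ_p`-order.

Proof.  For `φ : ℤ/p → O` put `Λ_φ f = ∑ j, φ j * F f j`, `F f j = ∑ k, ψ (-(j k)) f k`.  Then
`Λ_1 f = p f 0`, `Λ_{χ_m} f = p f m`, `Λ_{δ_j} f = F f j`, and the convolution theorem
`p * Λ_{φ φ'} f = ∑ i, Λ_φ (a i) * Λ_φ' (b i)` holds.  The `φ` with `p ∣ Λ_φ f` for all `f ∈ B` form
an `O`-subalgebra (by `Δ`-stability) containing `ℓ = (χ_1 - 1) / (1 - ζ)` (by locality); the values of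
`ℓ` are pairwise distinct modulo *cyclotomic units*, so Lagrange interpolation puts every `δ_j` in
`O[ℓ]`.  Mathlib only.
-/
import Mathlib

set_option autoImplicit false
set_option linter.unusedSectionVars false

namespace Fermat.Agent.GF.Ord

open Finset

variable {O : Type*} [CommRing O]
variable {p : ℕ} [hp : Fact p.Prime]

/-- `Δ`-stability of a function algebra on `ℤ/p`. -/
def DeltaStable (B : Subalgebra O (ZMod p → O)) : Prop :=
  ∀ f ∈ B, ∃ (n : ℕ) (a b : Fin n → (ZMod p → O)), (∀ i, a i ∈ B) ∧ (∀ i, b i ∈ B) ∧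
    ∀ x y, f (x + y) = ∑ i, a i x * b i y

/-- the (unnormalised) Fourier transform. -/
def four (ψ : AddChar (ZMod p) O) (f : ZMod p → O) (j : ZMod p) : O :=
  ∑ k, ψ (-(j * k)) * f k

/-- the functional `Λ_φ`. -/
def lam (ψ : AddChar (ZMod p) O) (φ f : ZMod p → O) : O :=
  ∑ j, φ j * four ψ f j

section basic

variable (ψ : AddChar (ZMod p) O)

theorem lam_add (φ φ' f : ZMod p → O) : lam ψ (φ + φ') f = lam ψ φ f + lam ψ φ' f := by
  simp only [lam, Pi.add_apply, add_mul, Finset.sum_add_distrib]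

theorem lam_sub (φ φ' f : ZMod p → O) : lam ψ (φ - φ') f = lam ψ φ f - lam ψ φ' f := by
  simp only [lam, Pi.sub_apply, sub_mul, Finset.sum_sub_distrib]

theorem lam_smul (c : O) (φ f : ZMod p → O) : lam ψ (c • φ) f = c * lam ψ φ f := by
  simp only [lam, Pi.smul_apply, smul_eq_mul, Finset.mul_sum, mul_assoc]

theorem lam_single (j : ZMod p) (f : ZMod p → O) :
    lam ψ (Pi.single j 1) f = four ψ f j := by
  classical
  rw [lam, Finset.sum_eq_single j]
  · rw [Pi.single_eq_same, one_mul]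
  · intro b _ hb
    rw [Pi.single_eq_of_ne hb, zero_mul]
  · intro h
    exact absurd (Finset.mem_univ j) h

end basic

section domain

variable [IsDomain O] (ψ : AddChar (ZMod p) O) (hψ : ψ.IsPrimitive)
include hψ

/-- orthogonality. -/
theorem sum_char_mul (b : ZMod p) :
    ∑ x : ZMod p, ψ (x * b) = if b = 0 then (p : O) else 0 := by
  classical
  have := AddChar.sum_mulShift (R := ZMod p) (R' := O) b hψ
  rw [this, ZMod.card]
  split_ifs <;> simp

theorem lam_const (c : O) (f : ZMod p → O) :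
    lam ψ (fun _ => c) f = c * ((p : O) * f 0) := by
  classical
  simp only [lam, four]
  rw [← Finset.mul_sum, Finset.sum_comm]
  congr 1
  have : ∀ k : ZMod p, ∑ j : ZMod p, ψ (-(j * k)) * f k
      = (if k = 0 then (p : O) else 0) * f k := by
    intro k
    rw [← Finset.sum_mul]
    congr 1
    have h := sum_char_mul ψ hψ (-k)
    simp only [mul_neg, neg_eq_zero] at h
    exact h
  rw [Finset.sum_congr rfl (fun k _ => this k), Finset.sum_eq_single 0]
  · rw [if_pos rfl]
  · intro b _ hb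
    rw [if_neg hb, zero_mul]
  · intro h
    exact absurd (Finset.mem_univ _) h

theorem lam_char (m : ZMod p) (f : ZMod p → O) :
    lam ψ (fun j => ψ (j * m)) f = (p : O) * f m := by
  classical
  simp only [lam, four]
  simp_rw [Finset.mul_sum]
  rw [Finset.sum_comm]
  have : ∀ k : ZMod p, ∑ j : ZMod p, ψ (j * m) * (ψ (-(j * k)) * f k)
      = (if k = m then (p : O) else 0) * f k := by
    intro k
    have h1 : ∀ j : ZMod p, ψ (j * m) * (ψ (-(j * k)) * f k) = ψ (j * (m - k)) * f k := by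
      intro j
      rw [← mul_assoc, ← AddChar.map_add_eq_mul]
      congr 2
      ring
    rw [Finset.sum_congr rfl (fun j _ => h1 j), ← Finset.sum_mul]
    congr 1
    have h := sum_char_mul ψ hψ (m - k)
    rw [h]
    by_cases hk : k = m
    · rw [if_pos hk, if_pos (by rw [hk, sub_self])]
    · rw [if_neg hk, if_neg (fun h0 => hk (sub_eq_zero.mp h0).symm)]
  rw [Finset.sum_congr rfl (fun k _ => this k), Finset.sum_eq_single m]
  · rw [if_pos rfl]
  · intro b _ hb
    rw [if_neg hb, zero_mul]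
  · intro h
    exact absurd (Finset.mem_univ _) h

/-- the **convolution identity** on Fourier transforms. -/
theorem four_mul_four {n : ℕ} {f : ZMod p → O} {a b : Fin n → (ZMod p → O)}
    (hab : ∀ x y, f (x + y) = ∑ i, a i x * b i y) (j j' : ZMod p) :
    ∑ i, four ψ (a i) j * four ψ (b i) j' = if j = j' then (p : O) * four ψ f j else 0 := by
  classical
  -- expand
  have h1 : ∑ i, four ψ (a i) j * four ψ (b i) j'
      = ∑ k, ∑ k', ψ (-(j * k)) * ψ (-(j' * k')) * f (k + k') := by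
    simp only [four]
    simp_rw [Finset.sum_mul_sum]
    rw [Finset.sum_comm]
    refine Finset.sum_congr rfl (fun k _ => ?_)
    rw [Finset.sum_comm]
    refine Finset.sum_congr rfl (fun k' _ => ?_)
    rw [hab k k', Finset.mul_sum]
    refine Finset.sum_congr rfl (fun i _ => ?_)
    ring
  rw [h1]
  -- reindex `k' = s - k`
  have h2 : ∀ k : ZMod p, ∑ k', ψ (-(j * k)) * ψ (-(j' * k')) * f (k + k')
      = ∑ s, ψ (-(j * k)) * ψ (-(j' * (s - k))) * f s := by
    intro k
    refine Fintype.sum_equiv (Equiv.addLeft k) _ _ (fun k' => ?_)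
    simp only [Equiv.coe_addLeft, add_sub_cancel_left]
  rw [Finset.sum_congr rfl (fun k _ => h2 k), Finset.sum_comm]
  have h3 : ∀ s : ZMod p, ∑ k, ψ (-(j * k)) * ψ (-(j' * (s - k))) * f s
      = (if j = j' then (p : O) else 0) * (ψ (-(j' * s)) * f s) := by
    intro s
    have h4 : ∀ k : ZMod p, ψ (-(j * k)) * ψ (-(j' * (s - k))) * f s
        = ψ (k * (j' - j)) * (ψ (-(j' * s)) * f s) := by
      intro k
      rw [← mul_assoc, ← AddChar.map_add_eq_mul, ← AddChar.map_add_eq_mul]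
      congr 2
      ring
    rw [Finset.sum_congr rfl (fun k _ => h4 k), ← Finset.sum_mul, sum_char_mul ψ hψ]
    congr 1
    by_cases hj : j = j'
    · rw [if_pos hj, if_pos (by rw [hj, sub_self])]
    · rw [if_neg hj, if_neg (fun h0 => hj (sub_eq_zero.mp h0).symm)]
  rw [Finset.sum_congr rfl (fun s _ => h3 s), ← Finset.mul_sum]
  by_cases hj : j = j'
  · rw [if_pos hj, if_pos hj, four, hj]
  · rw [if_neg hj, if_neg hj, zero_mul]

/-- the **convolution theorem** for the functionals `Λ`. -/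
theorem lam_mul {n : ℕ} {f : ZMod p → O} {a b : Fin n → (ZMod p → O)}
    (hab : ∀ x y, f (x + y) = ∑ i, a i x * b i y) (φ φ' : ZMod p → O) :
    (p : O) * lam ψ (φ * φ') f = ∑ i, lam ψ φ (a i) * lam ψ φ' (b i) := by
  classical
  have h1 : ∑ i, lam ψ φ (a i) * lam ψ φ' (b i)
      = ∑ j, ∑ j', φ j * φ' j' * ∑ i, four ψ (a i) j * four ψ (b i) j' := by
    simp only [lam]
    simp_rw [Finset.sum_mul_sum, Finset.mul_sum]
    rw [Finset.sum_comm]
    refine Finset.sum_congr rfl (fun j _ => ?_)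
    rw [Finset.sum_comm]
    refine Finset.sum_congr rfl (fun j' _ => ?_)
    refine Finset.sum_congr rfl (fun i _ => ?_)
    ring
  rw [h1]
  simp_rw [four_mul_four ψ hψ hab]
  have h2 : ∀ j : ZMod p, ∑ j', φ j * φ' j' * (if j = j' then (p : O) * four ψ f j else 0)
      = (p : O) * ((φ * φ') j * four ψ f j) := by
    intro j
    rw [Finset.sum_eq_single j]
    · rw [if_pos rfl, Pi.mul_apply]
      ring
    · intro b _ hb
      rw [if_neg (Ne.symm hb), mul_zero]
    · intro h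
      exact absurd (Finset.mem_univ _) h
  rw [Finset.sum_congr rfl (fun j _ => h2 j), ← Finset.mul_sum]
  rfl

end domain

section main

variable [IsDomain O] (ψ : AddChar (ZMod p) O) (B : Subalgebra O (ZMod p → O))

/-- `φ` is `B`-integral: `p ∣ Λ_φ f` for all `f ∈ B`. -/
def Integral (φ : ZMod p → O) : Prop := ∀ f ∈ B, (p : O) ∣ lam ψ φ f

variable {ψ B}

theorem Integral.add {φ φ' : ZMod p → O} (h : Integral ψ B φ) (h' : Integral ψ B φ') :
    Integral ψ B (φ + φ') := fun f hf => by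
  rw [lam_add]
  exact dvd_add (h f hf) (h' f hf)

theorem Integral.sub {φ φ' : ZMod p → O} (h : Integral ψ B φ) (h' : Integral ψ B φ') :
    Integral ψ B (φ - φ') := fun f hf => by
  rw [lam_sub]
  exact dvd_sub (h f hf) (h' f hf)

theorem Integral.smul (c : O) {φ : ZMod p → O} (h : Integral ψ B φ) :
    Integral ψ B (c • φ) := fun f hf => by
  rw [lam_smul]
  exact Dvd.dvd.mul_left (h f hf) c

variable (hψ : ψ.IsPrimitive)
include hψ

theorem integral_const (c : O) : Integral ψ B (fun _ => c) := fun f _ => by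
  rw [lam_const ψ hψ]
  exact Dvd.dvd.mul_left (Dvd.intro _ rfl) c

theorem integral_char (m : ZMod p) : Integral ψ B (fun j => ψ (j * m)) := fun f _ => by
  rw [lam_char ψ hψ]
  exact Dvd.intro _ rfl

theorem Integral.mul (hΔ : DeltaStable B) (hp0 : (p : O) ≠ 0) {φ φ' : ZMod p → O}
    (h : Integral ψ B φ) (h' : Integral ψ B φ') : Integral ψ B (φ * φ') := fun f hf => by
  obtain ⟨n, a, b, ha, hb, hab⟩ := hΔ f hf
  have h1 := lam_mul ψ hψ hab φ φ'
  have h2 : (p : O) * (p : O) ∣ (p : O) * lam ψ (φ * φ') f := by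
    rw [h1]
    refine Finset.dvd_sum (fun i _ => ?_)
    exact mul_dvd_mul (h _ (ha i)) (h' _ (hb i))
  exact (mul_dvd_mul_iff_left hp0).mp h2

theorem Integral.prod (hΔ : DeltaStable B) (hp0 : (p : O) ≠ 0) {ι : Type*} (s : Finset ι)
    (g : ι → (ZMod p → O)) (h : ∀ i ∈ s, Integral ψ B (g i)) :
    Integral ψ B (∏ i ∈ s, g i) := by
  classical
  induction s using Finset.induction_on with
  | empty =>
    rw [Finset.prod_empty]
    exact integral_const hψ 1
  | insert i s hi ih =>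
    rw [Finset.prod_insert hi]
    exact Integral.mul hψ hΔ hp0 (h i (Finset.mem_insert_self i s))
      (ih (fun j hj => h j (Finset.mem_insert_of_mem hj)))

omit hψ in
/-- `ψ j = ζ ^ j`, `ζ = ψ 1`. -/
theorem char_eq_pow (ψ : AddChar (ZMod p) O) (j : ZMod p) : ψ j = ψ 1 ^ j.val := by
  have : j = j.val • (1 : ZMod p) := by
    rw [nsmul_eq_mul, mul_one, ZMod.natCast_zmod_val]
  conv_lhs => rw [this]
  rw [AddChar.map_nsmul_eq_pow]

/-- `ℓ = (χ_1 - 1) / (1 - ζ)`. -/
def ell (ψ : AddChar (ZMod p) O) (j : ZMod p) : O := -(∑ i ∈ Finset.range j.val, ψ 1 ^ i)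

omit hψ in
theorem one_sub_mul_ell (ψ : AddChar (ZMod p) O) (j : ZMod p) :
    (1 - ψ 1) * ell ψ j = ψ j - 1 := by
  rw [ell, char_eq_pow ψ j, ← geom_sum_mul]
  ring

theorem one_sub_ne_zero : (1 : O) - ψ 1 ≠ 0 := by
  intro h
  have h1 : ψ 1 = 1 := (sub_eq_zero.mp h).symm
  have := (AddChar.IsPrimitive.zmod_char_eq_one_iff p hψ 1).mp h1
  exact one_ne_zero this

theorem integral_ell (hloc : ∀ f ∈ B, (1 - ψ 1) ∣ f 1 - f 0) : Integral ψ B (ell ψ) := by
  intro f hf
  obtain ⟨c, hc⟩ := hloc f hf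
  refine ⟨c, ?_⟩
  have h0 := one_sub_ne_zero hψ
  apply mul_left_cancel₀ h0
  rw [← lam_smul]
  have : (1 - ψ 1) • ell ψ = (fun j => ψ (j * 1)) - (fun _ => (1 : O)) := by
    funext j
    rw [Pi.smul_apply, smul_eq_mul, one_sub_mul_ell, Pi.sub_apply, mul_one]
  rw [this, lam_sub, lam_char ψ hψ, lam_const ψ hψ, one_mul, ← mul_sub, hc]
  ring

/-- the values of `ℓ` differ by **cyclotomic units**. -/
theorem isUnit_ell_sub {j0 j : ZMod p} (hj : j0 ≠ j) : IsUnit (ell ψ j0 - ell ψ j) := by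
  have h0 := one_sub_ne_zero hψ
  set m : ZMod p := j0 - j with hm
  have hm0 : m ≠ 0 := sub_ne_zero.mpr hj
  set n' : ℕ := (m⁻¹).val with hn'
  set S : O := ∑ i ∈ Finset.range n', ψ m ^ i with hS
  have hpow : ψ m ^ n' = ψ 1 := by
    rw [← AddChar.map_nsmul_eq_pow]
    congr 1
    rw [nsmul_eq_mul, hn', ZMod.natCast_zmod_val, inv_mul_cancel₀ hm0]
  have hS1 : S * (ψ m - 1) = ψ 1 - 1 := by
    rw [hS, geom_sum_mul, hpow]
  refine IsUnit.of_mul_eq_one (-(S * ψ (-j))) ?_
  apply mul_left_cancel₀ h0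
  have e1 : (1 - ψ 1) * ((ell ψ j0 - ell ψ j) * -(S * ψ (-j)))
      = ((1 - ψ 1) * ell ψ j0 - (1 - ψ 1) * ell ψ j) * -(S * ψ (-j)) := by ring
  rw [e1, one_sub_mul_ell, one_sub_mul_ell]
  have e2 : ψ j0 = ψ m * ψ j := by
    rw [← AddChar.map_add_eq_mul, hm, sub_add_cancel]
  have e3 : ψ j * ψ (-j) = 1 := by
    rw [← AddChar.map_add_eq_mul, add_neg_cancel, AddChar.map_zero_eq_one]
  have e4 : (ψ j0 - 1 - (ψ j - 1)) * -(S * ψ (-j)) = -(S * (ψ m - 1)) * (ψ j * ψ (-j)) := by
    rw [e2]; ring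
  rw [e4, hS1, e3]
  ring

/-- **(ORD1)**: integrality of the Fourier coefficients of a local `Δ`-stable algebra. -/
theorem dvd_fourier (hΔ : DeltaStable B) (hp0 : (p : O) ≠ 0)
    (hloc : ∀ f ∈ B, (1 - ψ 1) ∣ f 1 - f 0) :
    ∀ f ∈ B, ∀ j, (p : O) ∣ ∑ k, ψ (-(j * k)) * f k := by
  classical
  intro f hf j0
  -- Lagrange interpolation of `δ_{j0}` in `O[ℓ]`
  have hU : IsUnit (∏ j ∈ Finset.univ.erase j0, (ell ψ j0 - ell ψ j)) := by
    refine Finset.prod_induction _ IsUnit (fun a b => IsUnit.mul) isUnit_one ?_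
    intro j hj
    exact isUnit_ell_sub hψ (Finset.ne_of_mem_erase hj).symm
  obtain ⟨c, hc⟩ := hU.exists_right_inv
  have hδ : (Pi.single j0 1 : ZMod p → O)
      = c • ∏ j ∈ Finset.univ.erase j0, (ell ψ - fun _ => ell ψ j) := by
    funext j1
    rw [Pi.smul_apply, smul_eq_mul, Finset.prod_apply]
    by_cases h1 : j1 = j0
    · subst h1
      rw [Pi.single_eq_same]
      simp only [Pi.sub_apply]
      rw [mul_comm, hc]
    · rw [Pi.single_eq_of_ne h1]
      rw [Finset.prod_eq_zero (Finset.mem_erase.mpr ⟨h1, Finset.mem_univ j1⟩), mul_zero]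
      rw [Pi.sub_apply, sub_self]
  have hint : Integral ψ B (Pi.single j0 1) := by
    rw [hδ]
    refine Integral.smul c ?_
    refine Integral.prod hψ hΔ hp0 _ _ (fun j _ => ?_)
    exact Integral.sub (integral_ell hψ hloc) (integral_const hψ _)
  have := hint f hf
  rwa [lam_single] at this

/-- **(ORD1)**, coefficient form: `B ⊆ O[χ]`. -/
theorem exists_coeff (hΔ : DeltaStable B) (hp0 : (p : O) ≠ 0)
    (hloc : ∀ f ∈ B, (1 - ψ 1) ∣ f 1 - f 0) :
    ∀ f ∈ B, ∃ c : ZMod p → O, ∀ k, f k = ∑ j, c j * ψ (j * k) := by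
  intro f hf
  have h := dvd_fourier hψ hΔ hp0 hloc f hf
  choose c hc using h
  refine ⟨c, fun k => ?_⟩
  apply mul_left_cancel₀ hp0
  rw [← lam_char ψ hψ k f, lam, Finset.mul_sum]
  refine Finset.sum_congr rfl (fun j _ => ?_)
  rw [four, hc j]
  ring

end main

end Fermat.Agent.GF.Ord
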